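import Fermat.Agent.S55.Local.Spec

/-!
# S55 layer L — small integrality helpers used by the glue pieces T1a/T1b/T2 (helper530)
-/

set_option autoImplicit false

namespace Fermat.Agent.S55.Local.H530

open Fermat.Agent.S55.Local

section aux

variable (A F : Type) [CommRing A] [Field F] [Algebra A F]
variable (K : Type) [Field K] [Algebra F K]
variable (L : Type) [Field L] [Algebra F L] [Algebra K L] [IsScalarTower F K L]

lemma toL_eq_comp : toL A F L = (algebraMap K L).comp (toL A F K) := by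
  ext a
  simp [toL, IsScalarTower.algebraMap_apply F K L]

variable {A F K L}

/-- Integrality over `A` passes from `K` to `L`. -/
lemma isInt_algebraMap {x : K} (hx : IsInt A F K x) : IsInt A F L (algebraMap K L x) := by
  obtain ⟨p, hp, hpx⟩ := hx
  refine ⟨p, hp, ?_⟩
  rw [toL_eq_comp A F K L, ← Polynomial.hom_eval₂, hpx, map_zero]

/-- Integrality over `A` is intrinsic: it can be tested in the bigger field. -/
lemma isInt_of_isInt_algebraMap {x : K} (hx : IsInt A F L (algebraMap K L x)) : IsInt A F K x := by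
  obtain ⟨p, hp, hpx⟩ := hx
  refine ⟨p, hp, ?_⟩
  rw [toL_eq_comp A F K L, ← Polynomial.hom_eval₂] at hpx
  exact (algebraMap K L).injective (by rw [hpx, map_zero])

lemma isInt_algebraMap_iff {x : K} : IsInt A F L (algebraMap K L x) ↔ IsInt A F K x :=
  ⟨isInt_of_isInt_algebraMap, isInt_algebraMap⟩

/-- A `K`-algebra automorphism of `L` preserves integrality over `A`. -/
lemma isInt_algEquiv (σ : L ≃ₐ[K] L) {x : L} (hx : IsInt A F L x) : IsInt A F L (σ x) := by
  obtain ⟨p, hp, hpx⟩ := hx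
  refine ⟨p, hp, ?_⟩
  have hσ : (σ : L →+* L).comp (toL A F L) = toL A F L := by
    ext a
    simp only [RingHom.comp_apply, toL_apply, RingHom.coe_coe]
    rw [IsScalarTower.algebraMap_apply F K L, σ.commutes]
  have := Polynomial.hom_eval₂ p (toL A F L) (σ : L →+* L) x
  rw [hσ, hpx, map_zero] at this
  simpa using this.symm

lemma smul_mem_intUnits (σ : L ≃ₐ[K] L) {x : Lˣ} (hx : x ∈ intUnits A F L) :
    σ • x ∈ intUnits A F L := by
  refine ⟨?_, ?_⟩
  · have : ((σ • x : Lˣ) : L) = σ (x : L) := rfl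
    rw [this]; exact isInt_algEquiv σ hx.1
  · have : (((σ • x)⁻¹ : Lˣ) : L) = σ ((x⁻¹ : Lˣ) : L) := by
      rw [← smul_inv']; rfl
    rw [this]; exact isInt_algEquiv σ hx.2

lemma smul_mem_higherUnits (σ : L ≃ₐ[K] L) (ϖ : K) (j : ℕ) {x : Lˣ}
    (hx : x ∈ higherUnits A F L (algebraMap K L ϖ) j) :
    σ • x ∈ higherUnits A F L (algebraMap K L ϖ) j := by
  obtain ⟨hxu, b, hb, hxb⟩ := hx
  refine ⟨smul_mem_intUnits σ hxu, σ b, isInt_algEquiv σ hb, ?_⟩
  have : ((σ • x : Lˣ) : L) = σ (x : L) := rfl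
  rw [this, hxb]
  simp [σ.commutes]

lemma higherUnits_succ_le {ϖ : L} (hϖ : IsInt A F L ϖ) (j : ℕ) :
    higherUnits A F L ϖ (j + 1) ≤ higherUnits A F L ϖ j := by
  rintro x ⟨hxu, b, hb, hxb⟩
  exact ⟨hxu, ϖ * b, hϖ.mul hb, by rw [hxb]; ring⟩

lemma higherUnits_zero (ϖ : L) : higherUnits A F L ϖ 0 = intUnits A F L := by
  ext x
  constructor
  · rintro ⟨hxu, -⟩; exact hxu
  · intro hx
    refine ⟨hx, (x : L) - 1, ?_, by ring⟩
    have := hx.1.add (isInt_one A F L).neg
    simpa [sub_eq_add_neg] using this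

/-- A uniformizer of `K`, viewed in `L`, is integral, nonzero, with non-integral inverse. -/
lemma unif_algebraMap_props {ϖK : Kˣ} (h : IsUnif A F K ϖK) :
    IsInt A F L (algebraMap K L ϖK) ∧ algebraMap K L (ϖK : K) ≠ 0 ∧
      ¬ IsInt A F L (algebraMap K L (ϖK : K))⁻¹ := by
  refine ⟨isInt_algebraMap h.1, ?_, ?_⟩
  · simp
  · intro hinv
    apply h.2.1
    refine ⟨h.1, ?_⟩
    rw [← map_inv₀] at hinv
    have := isInt_of_isInt_algebraMap (A := A) (F := F) hinv
    simpa using this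

end aux

end Fermat.Agent.S55.Local.H530
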