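import Fermat.Agent.S55.Local.H530.Basic

/-!
# S55 layer L — GLUE T1a + T1b (helper530, subtask 272)

`H¹(Gal(L/K), U_L) = 0` and `H²(Gal(L/K), U_L) = 0` for `L / K` unramified, from the abstract
successive-approximation statements (A1, A2), the graded steps (UR2, UR3), completeness of the
unit filtration (LF5) and existence of a uniformizer (LF2).
-/

set_option autoImplicit false

namespace Fermat.Agent.S55.Local.H530

open groupCohomology Fermat.Agent.S55.Local

/-- **T1a** (glue): `H¹(Gal(L/K), U_L) = 0` for `L / K` unramified. -/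
theorem unramUnitsH1_of (hA1 : FiltH1Statement) (hUR2 : UnramGradedH1Statement)
    (hLF5 : UnitsCompleteStatement) (hLF2 : ExistsUnifStatement) : UnramUnitsH1Statement := by
  intro A F _ _ _ _ _ _ _ _ _ K _ _ _ L _ _ _ _ _ _ hur c hc hcU
  obtain ⟨ϖK, hϖK⟩ := hLF2 A F K
  obtain ⟨hϖint, hϖne, hϖinv⟩ := unif_algebraMap_props (A := A) (F := F) (L := L) hϖK
  have : FiniteDimensional F L := FiniteDimensional.trans F K L
  obtain ⟨hcomplete, hsep⟩ := hLF5 A F L (algebraMap K L ϖK) hϖint hϖne hϖinv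
  have key := hA1 (L ≃ₐ[K] L) Lˣ (fun j => higherUnits A F L (algebraMap K L (ϖK : K)) j)
    (fun j => higherUnits_succ_le hϖint j)
    (fun j g x hx => smul_mem_higherUnits g (ϖK : K) j hx)
    hcomplete hsep
    (fun j c' hc' hc'j => hUR2 A F K L ϖK hur hϖK j c' hc' hc'j)
    c hc (fun g => by rw [higherUnits_zero]; exact hcU g)
  obtain ⟨m, hm, hmc⟩ := key
  rw [higherUnits_zero] at hm
  exact ⟨m, hm, hmc⟩

/-- **T1b** (glue): `H²(Gal(L/K), U_L) = 0` for `L / K` unramified. -/
theorem unramUnitsH2_of (hA2 : FiltH2Statement) (hUR3 : UnramGradedH2Statement)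
    (hLF5 : UnitsCompleteStatement) (hLF2 : ExistsUnifStatement) : UnramUnitsH2Statement := by
  intro A F _ _ _ _ _ _ _ _ _ K _ _ _ L _ _ _ _ _ _ hur c hc hcU
  obtain ⟨ϖK, hϖK⟩ := hLF2 A F K
  obtain ⟨hϖint, hϖne, hϖinv⟩ := unif_algebraMap_props (A := A) (F := F) (L := L) hϖK
  have : FiniteDimensional F L := FiniteDimensional.trans F K L
  obtain ⟨hcomplete, hsep⟩ := hLF5 A F L (algebraMap K L ϖK) hϖint hϖne hϖinv
  have key := hA2 (L ≃ₐ[K] L) Lˣ (fun j => higherUnits A F L (algebraMap K L (ϖK : K)) j)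
    (fun j => higherUnits_succ_le hϖint j)
    (fun j g x hx => smul_mem_higherUnits g (ϖK : K) j hx)
    hcomplete hsep
    (fun j c' hc' hc'j => hUR3 A F K L ϖK hur hϖK j c' hc' hc'j)
    c hc (fun p => by rw [higherUnits_zero]; exact hcU p)
  obtain ⟨x, hx, hxc⟩ := key
  refine ⟨x, fun g => ?_, hxc⟩
  have := hx g
  rwa [higherUnits_zero] at this

end Fermat.Agent.S55.Local.H530
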