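import Fermat.Agent.S55.Local.H530.Basic

/-!
# S55 layer L — GLUE T2 (helper530, subtask 273)

Norm group of an unramified extension `L / K` of degree `n`: for a unit `u` of `K` and a
uniformizer `ϖK` of `K`, `u * ϖK ^ m` is a norm from `L` iff `n ∣ m`.

Inputs: UR4 (`UnramNormUnitsStatement`: units of `K` are norms of units of `L`) and
LF8 (`NormUnitsIntStatement`: norms of integral units are integral units).
(`IsUnram` itself and `Algebra.norm_algebraMap` replace the use of LF7/LF3.)
-/

set_option autoImplicit false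

namespace Fermat.Agent.S55.Local.H530

open Fermat.Agent.S55.Local

section aux

variable {A F : Type} [CommRing A] [Field F] [Algebra A F]
variable {K : Type} [Field K] [Algebra F K]

/-- A power of a uniformizer is an integral unit only for the exponent `0`. -/
lemma eq_zero_of_unif_zpow_mem {ϖ : Kˣ} (h : IsUnif A F K ϖ) {j : ℤ}
    (hj : ϖ ^ j ∈ intUnits A F K) : j = 0 := by
  -- positive exponent case
  have pos : ∀ d : ℕ, ϖ ^ (d + 1) ∉ intUnits A F K := by
    intro d hd
    apply h.2.1
    refine ⟨h.1, ?_⟩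
    have e : ((ϖ⁻¹ : Kˣ) : K) = ((ϖ ^ d : Kˣ) : K) * (((ϖ ^ (d + 1))⁻¹ : Kˣ) : K) := by
      rw [← Units.val_mul]
      congr 1
      rw [pow_succ, mul_inv_rev, ← mul_assoc, mul_comm (ϖ ^ d) ϖ⁻¹, mul_assoc,
        mul_inv_cancel, mul_one]
    rw [e]
    refine IsInt.mul ?_ hd.2
    rw [Units.val_pow_eq_pow_val]
    clear e hd
    induction d with
    | zero => simpa using isInt_one A F K
    | succ d ih => rw [pow_succ]; exact ih.mul h.1
  rcases lt_trichotomy j 0 with hlt | heq | hgt
  · exfalso
    obtain ⟨d, hd⟩ : ∃ d : ℕ, j = -((d : ℤ) + 1) := ⟨(-j - 1).toNat, by omega⟩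
    have := (intUnits A F K).inv_mem hj
    rw [← zpow_neg, hd, neg_neg] at this
    have h2 : ϖ ^ ((d : ℤ) + 1) = ϖ ^ (d + 1) := by
      rw [← zpow_natCast]; congr 1
    rw [h2] at this
    exact pos d this
  · exact heq
  · exfalso
    obtain ⟨d, hd⟩ : ∃ d : ℕ, j = (d : ℤ) + 1 := ⟨(j - 1).toNat, by omega⟩
    have h2 : ϖ ^ ((d : ℤ) + 1) = ϖ ^ (d + 1) := by
      rw [← zpow_natCast]; congr 1
    rw [hd, h2] at hj
    exact pos d hj

variable {L : Type} [Field L] [Algebra F L] [Algebra K L]

lemma normUnits_unitsIncl (y : Kˣ) :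
    normUnits L K (unitsIncl L K y) = y ^ Module.finrank K L := by
  ext
  simp [Algebra.norm_algebraMap]

end aux

/-- **T2** (glue): norm group of an unramified extension. -/
theorem unramNormRange_of (hUR4 : UnramNormUnitsStatement) (hLF8 : NormUnitsIntStatement) :
    UnramNormRangeStatement := by
  intro A F _ _ _ _ _ _ _ _ _ K _ _ _ L _ _ _ _ _ _ ϖK hur hϖK u m hu
  constructor
  · -- a norm has valuation divisible by `n`
    rintro ⟨x, hx⟩
    obtain ⟨y, hy⟩ := hur x
    obtain ⟨k, hk⟩ := hϖK.2.2 y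
    have hNv := hLF8 A F K L _ hy
    refine ⟨k, ?_⟩
    -- `ϖK ^ (m - n * k)` is an integral unit
    have key : ϖK ^ (m - (Module.finrank K L : ℤ) * k) ∈ intUnits A F K := by
      have hN : normUnits L K (x * (unitsIncl L K y)⁻¹) =
          u * ϖK ^ m * (y ^ Module.finrank K L)⁻¹ := by
        rw [map_mul, map_inv, normUnits_unitsIncl, hx]
      have hb : (y * ϖK ^ (-k)) ^ Module.finrank K L =
          y ^ Module.finrank K L * ϖK ^ (-((Module.finrank K L : ℤ) * k)) := by
        rw [mul_pow, ← zpow_natCast (ϖK ^ (-k)), ← zpow_mul]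
        congr 2
        ring
      have e : ϖK ^ (m - (Module.finrank K L : ℤ) * k) =
          u⁻¹ * (normUnits L K (x * (unitsIncl L K y)⁻¹) *
            (y * ϖK ^ (-k)) ^ Module.finrank K L) := by
        rw [hN, hb, sub_eq_add_neg, zpow_add]
        generalize y ^ Module.finrank K L = Y
        generalize ϖK ^ m = P
        generalize ϖK ^ (-((Module.finrank K L : ℤ) * k)) = Q
        group
      rw [e]
      exact (intUnits A F K).mul_mem ((intUnits A F K).inv_mem hu)
        ((intUnits A F K).mul_mem hNv ((intUnits A F K).pow_mem hk _))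
    have := eq_zero_of_unif_zpow_mem hϖK key
    linarith
  · -- conversely
    rintro ⟨k, rfl⟩
    obtain ⟨w, -, hw⟩ := hUR4 A F K L hur u hu
    refine ⟨w * (unitsIncl L K ϖK) ^ k, ?_⟩
    rw [map_mul, map_zpow, normUnits_unitsIncl, hw, ← zpow_natCast, ← zpow_mul]

end Fermat.Agent.S55.Local.H530
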